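import Mathlib
import Fermat.Agent.Lib.EulerProd.IdealSum

/-!
# Euler products for the Dedekind zeta function and class-group L-series of a number field
-/

set_option autoImplicit false
set_option linter.style.haveILetI false
set_option linter.unusedSectionVars false

namespace Fermat.Agent.Lib.EulerProd

open NumberField Ideal Filter Topology Finset
open scoped nonZeroDivisors

variable (K : Type*) [Field K] [NumberField K]

/-- The type of nonzero prime ideals of `𝓞 K`, as prime elements of the monoid of ideals. -/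
abbrev PrimeIdeal : Type _ := {𝔭 : Ideal (𝓞 K) // Prime 𝔭}

variable {K}

theorem PrimeIdeal.ne_bot (𝔭 : PrimeIdeal K) : 𝔭.1 ≠ ⊥ := 𝔭.2.ne_zero

theorem PrimeIdeal.isPrime (𝔭 : PrimeIdeal K) : 𝔭.1.IsPrime := Ideal.isPrime_of_prime 𝔭.2

theorem PrimeIdeal.ne_top (𝔭 : PrimeIdeal K) : 𝔭.1 ≠ ⊤ := 𝔭.isPrime.ne_top

theorem PrimeIdeal.two_le_absNorm (𝔭 : PrimeIdeal K) : 2 ≤ absNorm 𝔭.1 := by
  have h0 : absNorm 𝔭.1 ≠ 0 := fun h => 𝔭.ne_bot (Ideal.absNorm_eq_zero_iff.mp h)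
  have h1 : absNorm 𝔭.1 ≠ 1 := fun h => 𝔭.ne_top (Ideal.absNorm_eq_one_iff.mp h)
  omega

/-- `x_𝔭 = N(𝔭)^(-s)`. -/
noncomputable def PrimeIdeal.x (𝔭 : PrimeIdeal K) (s : ℝ) : ℝ := ((absNorm 𝔭.1 : ℕ) : ℝ) ^ (-s)

theorem PrimeIdeal.x_pos (𝔭 : PrimeIdeal K) (s : ℝ) : 0 < 𝔭.x s := by
  have : (0 : ℝ) < ((absNorm 𝔭.1 : ℕ) : ℝ) := by
    have := 𝔭.two_le_absNorm
    positivity
  exact Real.rpow_pos_of_pos this _

theorem PrimeIdeal.x_le_inv (𝔭 : PrimeIdeal K) {s : ℝ} (hs : 1 ≤ s) :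
    𝔭.x s ≤ ((absNorm 𝔭.1 : ℕ) : ℝ)⁻¹ := by
  have h1 : (1 : ℝ) ≤ ((absNorm 𝔭.1 : ℕ) : ℝ) := by
    have := 𝔭.two_le_absNorm
    exact_mod_cast (by omega : 1 ≤ absNorm 𝔭.1)
  rw [PrimeIdeal.x, ← Real.rpow_neg_one]
  exact Real.rpow_le_rpow_of_exponent_le h1 (by linarith)

theorem PrimeIdeal.x_le_half (𝔭 : PrimeIdeal K) {s : ℝ} (hs : 1 ≤ s) : 𝔭.x s ≤ 1 / 2 := by
  refine (𝔭.x_le_inv hs).trans ?_
  have h2 : (2 : ℝ) ≤ ((absNorm 𝔭.1 : ℕ) : ℝ) := by exact_mod_cast 𝔭.two_le_absNorm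
  rw [one_div]
  exact inv_anti₀ (by norm_num) h2

variable (K)

/-- Euler product of the Dedekind zeta function (real argument `s > 1`). -/
theorem hasProd_zetaR {s : ℝ} (hs : 1 < s) :
    HasProd (fun 𝔭 : PrimeIdeal K ↦ (1 - 𝔭.x s)⁻¹) (zetaR K s) := by
  have hs0 : -s ≠ 0 := by linarith
  have h := hasProd_one_sub_inv (M := Ideal (𝓞 K)) (F := ℝ)
    (f := fun I => ((absNorm I : ℕ) : ℝ) ^ (-s))
    (by simp [Real.zero_rpow hs0]) (by simp)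
    (fun a b => by
      simp only [map_mul, Nat.cast_mul]
      exact Real.mul_rpow (Nat.cast_nonneg _) (Nat.cast_nonneg _))
    (by
      refine (summable_absNorm_rpow K hs).congr fun I => ?_
      rw [Real.norm_of_nonneg (by positivity)])
  exact h


/-! ### Class group characters -/

/-- Extension by zero of a class group character to all ideals. -/
noncomputable def chiI (χ : ClassGroup (𝓞 K) →* ℂˣ) (I : Ideal (𝓞 K)) : ℂ :=
  if h : I = ⊥ then 0 else (χ (ClassGroup.mk0 ⟨I, mem_nonZeroDivisors_iff_ne_zero.mpr h⟩) : ℂ)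

variable {K}

theorem chiI_bot (χ : ClassGroup (𝓞 K) →* ℂˣ) : chiI K χ ⊥ = 0 := by
  rw [chiI, dif_pos rfl]

theorem chiI_zero (χ : ClassGroup (𝓞 K) →* ℂˣ) : chiI K χ 0 = 0 := chiI_bot χ

theorem chiI_of_ne_bot (χ : ClassGroup (𝓞 K) →* ℂˣ) {I : Ideal (𝓞 K)} (h : I ≠ ⊥) :
    chiI K χ I = (χ (ClassGroup.mk0 ⟨I, mem_nonZeroDivisors_iff_ne_zero.mpr h⟩) : ℂ) := by
  rw [chiI, dif_neg h]

theorem chiI_coe (χ : ClassGroup (𝓞 K) →* ℂˣ) (I : (Ideal (𝓞 K))⁰) :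
    chiI K χ (I : Ideal (𝓞 K)) = (χ (ClassGroup.mk0 I) : ℂ) := by
  rw [chiI_of_ne_bot χ (nonZeroDivisors.coe_ne_zero I)]

theorem chiI_one (χ : ClassGroup (𝓞 K) →* ℂˣ) : chiI K χ 1 = 1 := by
  have h := chiI_coe χ (1 : (Ideal (𝓞 K))⁰)
  rw [map_one, map_one, Units.val_one] at h
  exact h

theorem chiI_mul (χ : ClassGroup (𝓞 K) →* ℂˣ) (I J : Ideal (𝓞 K)) :
    chiI K χ (I * J) = chiI K χ I * chiI K χ J := by
  by_cases hI : I = ⊥
  · subst hI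
    rw [Ideal.bot_mul, chiI_bot, zero_mul]
  by_cases hJ : J = ⊥
  · subst hJ
    rw [Ideal.mul_bot, chiI_bot, mul_zero]
  have h := chiI_coe χ ((⟨I, mem_nonZeroDivisors_iff_ne_zero.mpr hI⟩ : (Ideal (𝓞 K))⁰) *
    (⟨J, mem_nonZeroDivisors_iff_ne_zero.mpr hJ⟩ : (Ideal (𝓞 K))⁰))
  rw [map_mul, map_mul, Units.val_mul] at h
  rw [chiI_of_ne_bot χ hI, chiI_of_ne_bot χ hJ]
  rw [← h]
  rfl

theorem chi_pow_card (χ : ClassGroup (𝓞 K) →* ℂˣ) (c : ClassGroup (𝓞 K)) :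
    ((χ c : ℂˣ) : ℂ) ^ Fintype.card (ClassGroup (𝓞 K)) = 1 := by
  rw [← Units.val_pow_eq_pow_val, ← map_pow, pow_card_eq_one, map_one, Units.val_one]

theorem norm_chi (χ : ClassGroup (𝓞 K) →* ℂˣ) (c : ClassGroup (𝓞 K)) :
    ‖((χ c : ℂˣ) : ℂ)‖ = 1 :=
  Complex.norm_eq_one_of_pow_eq_one (chi_pow_card χ c) Fintype.card_ne_zero

theorem norm_chiI_le (χ : ClassGroup (𝓞 K) →* ℂˣ) (I : Ideal (𝓞 K)) : ‖chiI K χ I‖ ≤ 1 := by
  by_cases hI : I = ⊥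
  · subst hI
    rw [chiI_bot, norm_zero]
    exact zero_le_one
  · rw [chiI_of_ne_bot χ hI, norm_chi]

theorem norm_chiI_of_ne_bot (χ : ClassGroup (𝓞 K) →* ℂˣ) {I : Ideal (𝓞 K)} (hI : I ≠ ⊥) :
    ‖chiI K χ I‖ = 1 := by
  rw [chiI_of_ne_bot χ hI, norm_chi]

theorem chiI_pow_char (χ : ClassGroup (𝓞 K) →* ℂˣ) (k : ℕ) {I : Ideal (𝓞 K)} (hI : I ≠ ⊥) :
    chiI K (χ ^ k) I = chiI K χ I ^ k := by
  rw [chiI_of_ne_bot _ hI, chiI_of_ne_bot _ hI, MonoidHom.pow_apply, Units.val_pow_eq_pow_val]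

theorem chiI_one_char {I : Ideal (𝓞 K)} (hI : I ≠ ⊥) :
    chiI K (1 : ClassGroup (𝓞 K) →* ℂˣ) I = 1 := by
  rw [chiI_of_ne_bot _ hI, MonoidHom.one_apply, Units.val_one]

variable (K)

/-- The class L-series at a real argument, as a sum over all ideals. -/
noncomputable def classL (χ : ClassGroup (𝓞 K) →* ℂˣ) (s : ℝ) : ℂ :=
  ∑' I : Ideal (𝓞 K), chiI K χ I * ((((absNorm I : ℕ) : ℝ) ^ (-s) : ℝ) : ℂ)

theorem classL_eq_tsum_nonZeroDivisors (χ : ClassGroup (𝓞 K) →* ℂˣ) (s : ℝ) :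
    classL K χ s = ∑' I : (Ideal (𝓞 K))⁰,
      (χ (ClassGroup.mk0 I) : ℂ) * ((((absNorm (I : Ideal (𝓞 K)) : ℕ) : ℝ) ^ (-s) : ℝ) : ℂ) := by
  rw [classL]
  have hinj : Function.Injective (Subtype.val : (Ideal (𝓞 K))⁰ → Ideal (𝓞 K)) :=
    Subtype.val_injective
  rw [← hinj.tsum_eq (f := fun I : Ideal (𝓞 K) =>
    chiI K χ I * ((((absNorm I : ℕ) : ℝ) ^ (-s) : ℝ) : ℂ))]
  · refine tsum_congr fun I => ?_
    rw [chiI_coe]
  · intro I hI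
    rw [Function.mem_support] at hI
    have hI0 : I ≠ ⊥ := by
      rintro rfl
      exact hI (by rw [chiI_bot, zero_mul])
    exact ⟨⟨I, mem_nonZeroDivisors_iff_ne_zero.mpr hI0⟩, rfl⟩

theorem summable_norm_classL_term (χ : ClassGroup (𝓞 K) →* ℂˣ) {s : ℝ} (hs : 1 < s) :
    Summable (fun I : Ideal (𝓞 K) =>
      ‖chiI K χ I * ((((absNorm I : ℕ) : ℝ) ^ (-s) : ℝ) : ℂ)‖) := by
  refine Summable.of_nonneg_of_le (fun _ => norm_nonneg _) (fun I => ?_)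
    (summable_absNorm_rpow K hs)
  rw [norm_mul, Complex.norm_real, Real.norm_of_nonneg (by positivity)]
  calc ‖chiI K χ I‖ * ((absNorm I : ℕ) : ℝ) ^ (-s)
      ≤ 1 * ((absNorm I : ℕ) : ℝ) ^ (-s) := by
        gcongr
        exact norm_chiI_le χ I
    _ = _ := one_mul _

/-- Euler product of a class L-series (real argument `s > 1`). -/
theorem hasProd_classL (χ : ClassGroup (𝓞 K) →* ℂˣ) {s : ℝ} (hs : 1 < s) :
    HasProd (fun 𝔭 : PrimeIdeal K ↦ (1 - chiI K χ 𝔭.1 * ((𝔭.x s : ℝ) : ℂ))⁻¹)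
      (classL K χ s) := by
  have hs0 : -s ≠ 0 := by linarith
  have h := hasProd_one_sub_inv (M := Ideal (𝓞 K)) (F := ℂ)
    (f := fun I => chiI K χ I * ((((absNorm I : ℕ) : ℝ) ^ (-s) : ℝ) : ℂ))
    (by rw [chiI_zero, zero_mul]) (by
      rw [chiI_one, one_mul, Ideal.one_eq_top, Ideal.absNorm_top, Nat.cast_one, Real.one_rpow,
        Complex.ofReal_one])
    (fun a b => by
      simp only [map_mul, Nat.cast_mul, chiI_mul]
      rw [Real.mul_rpow (Nat.cast_nonneg _) (Nat.cast_nonneg _)]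
      push_cast
      ring)
    (summable_norm_classL_term K χ hs)
  exact h

theorem classL_one {s : ℝ} (hs : 1 < s) :
    classL K (1 : ClassGroup (𝓞 K) →* ℂˣ) s = ((zetaR K s : ℝ) : ℂ) := by
  have hs0 : -s ≠ 0 := by linarith
  rw [classL, zetaR, Complex.ofReal_tsum]
  refine tsum_congr fun I => ?_
  by_cases hI : I = ⊥
  · subst hI
    rw [chiI_bot, zero_mul, Ideal.absNorm_bot, Nat.cast_zero, Real.zero_rpow hs0,
      Complex.ofReal_zero]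
  · rw [chiI_one_char hI, one_mul]

end Fermat.Agent.Lib.EulerProd
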