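import Mathlib
import Fermat.Agent.Lib.EulerProd.EulerNF

/-!
# Counting prime ideals above a rational prime; primes of degree `≥ 2` are sparse

* `PrimeIdeal.exists_prime_mem`: every nonzero prime contains a rational prime `q`,
  and then `absNorm 𝔭 = q ^ k`, `1 ≤ k`.
* `card_le_finrank_of_mem`: at most `[K : ℚ]` primes contain a given rational prime.
* `sum_inv_absNorm_le_of_not_prime`: finite sums of `N(𝔭)⁻¹` over primes whose norm is not a
  prime number are bounded by `[K : ℚ] * ∑ m, 1 / m ^ 2`.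
-/

set_option autoImplicit false
set_option linter.style.haveILetI false
set_option linter.unusedSectionVars false

namespace Fermat.Agent.Lib.EulerProd

open NumberField Ideal Filter Topology Finset

variable {K : Type*} [Field K] [NumberField K]

theorem absNorm_span_natCast (q : ℕ) :
    absNorm (span {(q : 𝓞 K)}) = q ^ Module.finrank ℚ K := by
  rw [Ideal.absNorm_span_singleton]
  have h : ((q : ℕ) : 𝓞 K) = algebraMap ℤ (𝓞 K) (q : ℤ) := by simp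
  rw [h, Algebra.norm_algebraMap, RingOfIntegers.rank, Int.natAbs_pow, Int.natAbs_natCast]

/-- Every nonzero prime ideal contains a rational prime. -/
theorem PrimeIdeal.exists_prime_mem (𝔭 : PrimeIdeal K) :
    ∃ q : ℕ, q.Prime ∧ (q : 𝓞 K) ∈ 𝔭.1 := by
  classical
  have hex : ∃ m : ℕ, 2 ≤ m ∧ (m : 𝓞 K) ∈ 𝔭.1 := ⟨absNorm 𝔭.1, 𝔭.two_le_absNorm, absNorm_mem 𝔭.1⟩
  refine ⟨Nat.find hex, ?_, (Nat.find_spec hex).2⟩
  have h2 := (Nat.find_spec hex).1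
  rw [Nat.prime_def]
  refine ⟨h2, fun a ha => ?_⟩
  obtain ⟨b, hb⟩ := ha
  by_contra hcon
  simp only [not_or] at hcon
  have hmem : ((a * b : ℕ) : 𝓞 K) ∈ 𝔭.1 := hb ▸ (Nat.find_spec hex).2
  rw [Nat.cast_mul] at hmem
  have hpos : 0 < Nat.find hex := by omega
  have ha0 : a ≠ 0 := by
    rintro rfl
    rw [zero_mul] at hb
    omega
  have hb0 : b ≠ 0 := by
    rintro rfl
    rw [mul_zero] at hb
    omega
  have halt : a < Nat.find hex := by
    have hle : a ≤ Nat.find hex := Nat.le_of_dvd hpos ⟨b, hb⟩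
    exact lt_of_le_of_ne hle hcon.2
  have hblt : b < Nat.find hex := by
    have hle : b ≤ Nat.find hex := Nat.le_of_dvd hpos ⟨a, by rw [hb, mul_comm]⟩
    refine lt_of_le_of_ne hle ?_
    intro hbe
    rw [hbe] at hb
    have : a = 1 := by
      have h1 : 1 * Nat.find hex = a * Nat.find hex := by rw [one_mul]; exact hb
      exact (Nat.eq_of_mul_eq_mul_right hpos h1).symm
    exact hcon.1 this
  rcases 𝔭.isPrime.mem_or_mem hmem with h | h
  · have ha2 : 2 ≤ a := by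
      rcases Nat.lt_or_ge a 2 with h1 | h1
      · exfalso
        have : a = 1 := by omega
        exact hcon.1 this
      · exact h1
    exact Nat.find_min hex halt ⟨ha2, h⟩
  · have hb2 : 2 ≤ b := by
      rcases Nat.lt_or_ge b 2 with h1 | h1
      · exfalso
        have hb1 : b = 1 := by omega
        rw [hb1, mul_one] at hb
        exact hcon.2 hb.symm
      · exact h1
    exact Nat.find_min hex hblt ⟨hb2, h⟩

theorem PrimeIdeal.absNorm_eq_pow_of_mem (𝔭 : PrimeIdeal K) {q : ℕ} (hq : q.Prime)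
    (hmem : (q : 𝓞 K) ∈ 𝔭.1) :
    ∃ k : ℕ, 1 ≤ k ∧ k ≤ Module.finrank ℚ K ∧ absNorm 𝔭.1 = q ^ k := by
  have hle : span {(q : 𝓞 K)} ≤ 𝔭.1 := (Ideal.span_singleton_le_iff_mem _).mpr hmem
  have hdvd := Ideal.absNorm_dvd_absNorm_of_le hle
  rw [absNorm_span_natCast] at hdvd
  obtain ⟨k, hk, hk'⟩ := (Nat.dvd_prime_pow hq).1 hdvd
  refine ⟨k, ?_, hk, hk'⟩
  rcases Nat.eq_zero_or_pos k with rfl | hpos
  · exfalso
    have := 𝔭.two_le_absNorm
    rw [hk', pow_zero] at this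
    omega
  · exact hpos

/-- The rational prime below a prime ideal. -/
noncomputable def PrimeIdeal.below (𝔭 : PrimeIdeal K) : ℕ := (absNorm 𝔭.1).minFac

theorem PrimeIdeal.below_spec (𝔭 : PrimeIdeal K) :
    𝔭.below.Prime ∧ (𝔭.below : 𝓞 K) ∈ 𝔭.1 ∧
      ∃ k : ℕ, 1 ≤ k ∧ k ≤ Module.finrank ℚ K ∧ absNorm 𝔭.1 = 𝔭.below ^ k := by
  obtain ⟨q, hq, hmem⟩ := 𝔭.exists_prime_mem
  obtain ⟨k, hk1, hkn, hk⟩ := 𝔭.absNorm_eq_pow_of_mem hq hmem
  have hb : 𝔭.below = q := by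
    rw [PrimeIdeal.below, hk, hq.pow_minFac (by omega)]
  rw [hb]
  exact ⟨hq, hmem, k, hk1, hkn, hk⟩

theorem PrimeIdeal.below_prime (𝔭 : PrimeIdeal K) : 𝔭.below.Prime := 𝔭.below_spec.1

theorem PrimeIdeal.below_mem (𝔭 : PrimeIdeal K) : (𝔭.below : 𝓞 K) ∈ 𝔭.1 := 𝔭.below_spec.2.1

theorem PrimeIdeal.below_sq_le_of_not_prime (𝔭 : PrimeIdeal K) (h : ¬ (absNorm 𝔭.1).Prime) :
    𝔭.below ^ 2 ≤ absNorm 𝔭.1 := by
  obtain ⟨hq, -, k, hk1, -, hk⟩ := 𝔭.below_spec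
  have hk2 : 2 ≤ k := by
    rcases Nat.lt_or_ge k 2 with h1 | h1
    · exfalso
      have : k = 1 := by omega
      rw [this, pow_one] at hk
      exact h (hk ▸ hq)
    · exact h1
  rw [hk]
  exact Nat.pow_le_pow_right hq.pos hk2

theorem PrimeIdeal.below_eq_absNorm_of_prime (𝔭 : PrimeIdeal K) (h : (absNorm 𝔭.1).Prime) :
    𝔭.below = absNorm 𝔭.1 := h.minFac_eq

/-- At most `[K : ℚ]` prime ideals contain a given rational prime. -/
theorem card_le_finrank_of_mem {q : ℕ} (hq : q.Prime) (G : Finset (PrimeIdeal K))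
    (hG : ∀ 𝔭 ∈ G, (q : 𝓞 K) ∈ 𝔭.1) : G.card ≤ Module.finrank ℚ K := by
  classical
  have hdvd : ∏ 𝔭 ∈ G.image Subtype.val, 𝔭 ∣ span {(q : 𝓞 K)} := by
    refine Finset.prod_primes_dvd _ (fun a ha => ?_) (fun a ha => ?_)
    · obtain ⟨𝔭, -, rfl⟩ := Finset.mem_image.mp ha
      exact 𝔭.2
    · obtain ⟨𝔭, h𝔭, rfl⟩ := Finset.mem_image.mp ha
      exact Ideal.dvd_iff_le.mpr ((Ideal.span_singleton_le_iff_mem _).mpr (hG 𝔭 h𝔭))
  rw [Finset.prod_image (fun x _ y _ h => Subtype.ext h)] at hdvd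
  have hnorm : absNorm (∏ 𝔭 ∈ G, 𝔭.1) ∣ q ^ Module.finrank ℚ K := by
    have := Ideal.absNorm_dvd_absNorm_of_le (Ideal.dvd_iff_le.mp hdvd)
    rwa [absNorm_span_natCast] at this
  rw [map_prod] at hnorm
  have hpow : q ^ G.card ∣ ∏ 𝔭 ∈ G, absNorm 𝔭.1 := by
    rw [← Finset.prod_const]
    refine Finset.prod_dvd_prod_of_dvd _ _ fun 𝔭 h𝔭 => ?_
    obtain ⟨k, hk1, -, hk⟩ := 𝔭.absNorm_eq_pow_of_mem hq (hG 𝔭 h𝔭)
    rw [hk]
    exact dvd_pow_self q (by omega)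
  exact (Nat.pow_dvd_pow_iff_le_right hq.one_lt).mp (hpow.trans hnorm)


/-- The constant bounding the contribution of primes of degree `≥ 2`. -/
noncomputable def degTwoBound (K : Type*) [Field K] [NumberField K] : ℝ :=
  Module.finrank ℚ K * ∑' m : ℕ, (((m : ℝ)) ^ 2)⁻¹

theorem degTwoBound_nonneg : 0 ≤ degTwoBound K := by
  unfold degTwoBound
  have : 0 ≤ ∑' m : ℕ, (((m : ℝ)) ^ 2)⁻¹ := tsum_nonneg fun m => by positivity
  positivity

/-- Finite sums of `f (below 𝔭)` are bounded by `[K:ℚ] * ∑' f` for summable nonnegative `f`. -/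
theorem sum_comp_below_le (f : ℕ → ℝ) (hf : ∀ m, 0 ≤ f m) (hsum : Summable f)
    (T : Finset (PrimeIdeal K)) :
    ∑ 𝔭 ∈ T, f 𝔭.below ≤ Module.finrank ℚ K * ∑' m : ℕ, f m := by
  classical
  rw [Finset.sum_comp f (fun 𝔭 : PrimeIdeal K => 𝔭.below)]
  calc ∑ q ∈ T.image (fun 𝔭 : PrimeIdeal K => 𝔭.below),
        (T.filter fun 𝔭 => 𝔭.below = q).card • f q
      ≤ ∑ q ∈ T.image (fun 𝔭 : PrimeIdeal K => 𝔭.below), (Module.finrank ℚ K : ℝ) * f q := by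
        refine Finset.sum_le_sum fun q hq => ?_
        rw [nsmul_eq_mul]
        refine mul_le_mul_of_nonneg_right ?_ (hf q)
        obtain ⟨𝔭₀, -, h𝔭₀⟩ := Finset.mem_image.mp hq
        have hqp : q.Prime := h𝔭₀ ▸ 𝔭₀.below_prime
        exact_mod_cast card_le_finrank_of_mem hqp _ fun 𝔭 h𝔭 => by
          have := (Finset.mem_filter.mp h𝔭).2
          exact this ▸ 𝔭.below_mem
    _ = (Module.finrank ℚ K : ℝ) * ∑ q ∈ T.image (fun 𝔭 : PrimeIdeal K => 𝔭.below), f q := by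
        rw [Finset.mul_sum]
    _ ≤ Module.finrank ℚ K * ∑' m : ℕ, f m := by
        refine mul_le_mul_of_nonneg_left ?_ (Nat.cast_nonneg _)
        exact hsum.sum_le_tsum _ fun m _ => hf m

/-- Finite sums of `N(𝔭)⁻¹` over primes whose norm is not a prime number are bounded. -/
theorem sum_inv_absNorm_le_of_not_prime (T : Finset (PrimeIdeal K))
    (hT : ∀ 𝔭 ∈ T, ¬ (absNorm 𝔭.1).Prime) :
    ∑ 𝔭 ∈ T, (((absNorm 𝔭.1 : ℕ) : ℝ))⁻¹ ≤ degTwoBound K := by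
  have hsum : Summable fun m : ℕ => (((m : ℝ)) ^ 2)⁻¹ :=
    Real.summable_nat_pow_inv.mpr (by norm_num)
  refine le_trans (Finset.sum_le_sum fun 𝔭 h𝔭 => ?_)
    (sum_comp_below_le (fun m : ℕ => (((m : ℝ)) ^ 2)⁻¹) (fun m => by positivity) hsum T)
  have h1 := 𝔭.below_sq_le_of_not_prime (hT 𝔭 h𝔭)
  have hpos : (0 : ℝ) < ((𝔭.below : ℕ) : ℝ) ^ 2 := by
    have := 𝔭.below_prime.pos
    positivity
  have h2 : (((𝔭.below : ℕ) : ℝ)) ^ 2 ≤ ((absNorm 𝔭.1 : ℕ) : ℝ) := by exact_mod_cast h1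
  exact inv_anti₀ hpos h2

/-- Finite sums of `N(𝔭)⁻²` over all primes are bounded. -/
theorem sum_inv_absNorm_sq_le (T : Finset (PrimeIdeal K)) :
    ∑ 𝔭 ∈ T, ((((absNorm 𝔭.1 : ℕ) : ℝ)) ^ 2)⁻¹ ≤ degTwoBound K := by
  have hsum : Summable fun m : ℕ => (((m : ℝ)) ^ 2)⁻¹ :=
    Real.summable_nat_pow_inv.mpr (by norm_num)
  refine le_trans (Finset.sum_le_sum fun 𝔭 h𝔭 => ?_)
    (sum_comp_below_le (fun m : ℕ => (((m : ℝ)) ^ 2)⁻¹) (fun m => by positivity) hsum T)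
  obtain ⟨hq, -, k, hk1, -, hk⟩ := 𝔭.below_spec
  have hpos : (0 : ℝ) < ((𝔭.below : ℕ) : ℝ) ^ 2 := by
    have := hq.pos
    positivity
  have h1 : 𝔭.below ≤ absNorm 𝔭.1 := by
    rw [hk]
    exact Nat.le_self_pow (by omega) _
  have h2 : (((𝔭.below : ℕ) : ℝ)) ^ 2 ≤ (((absNorm 𝔭.1 : ℕ) : ℝ)) ^ 2 := by
    have : ((𝔭.below : ℕ) : ℝ) ≤ ((absNorm 𝔭.1 : ℕ) : ℝ) := by exact_mod_cast h1
    exact pow_le_pow_left₀ (Nat.cast_nonneg _) this 2
  exact inv_anti₀ hpos h2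

end Fermat.Agent.Lib.EulerProd
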