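import Mathlib
import Fermat.Agent.Lib.EulerProd.PrimeCount

/-!
# Prime ideal sums: `∑_{deg 𝔭 = 1} N(𝔭)^(-s) = log (1/(s-1)) + O(1)` on `(1, 2]`

Main results (any number field `K`):
* `zetaR_antitone`, `exists_zetaR_bounds`: `c ≤ (s - 1) ζ_K(s) ≤ C` on `(1, 2]`.
* `sum_x_le_log_zetaR`: `∑_{𝔭 ∈ T} N(𝔭)^(-s) ≤ log ζ_K(s)` for every finite set `T` of primes.
* `log_zetaR_le`: `log ζ_K(s) ≤ ∑' 𝔭, N(𝔭)^(-s) + 2 * degTwoBound K`.
* `exists_primeSumOne_bound`: `|∑'_{N(𝔭) prime} N(𝔭)^(-s) - log (1/(s-1))| ≤ C` on `(1, 2]`.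
-/

set_option autoImplicit false
set_option linter.style.haveILetI false
set_option linter.unusedSectionVars false

namespace Fermat.Agent.Lib.EulerProd

open NumberField Ideal Filter Topology Finset

variable (K : Type*) [Field K] [NumberField K]

theorem zetaR_antitone {s t : ℝ} (hs : 1 < s) (hst : s ≤ t) : zetaR K t ≤ zetaR K s := by
  refine (summable_absNorm_rpow K (lt_of_lt_of_le hs hst)).tsum_le_tsum (fun I => ?_)
    (summable_absNorm_rpow K hs)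
  rcases Nat.eq_zero_or_pos (absNorm I) with h | h
  · rw [h, Nat.cast_zero, Real.zero_rpow (by linarith), Real.zero_rpow (by linarith)]
  · have h1 : (1 : ℝ) ≤ ((absNorm I : ℕ) : ℝ) := by exact_mod_cast h
    exact Real.rpow_le_rpow_of_exponent_le h1 (by linarith)

/-- `c ≤ (s - 1) ζ_K(s) ≤ C` on `(1, 2]`. -/
theorem exists_zetaR_bounds :
    ∃ c C : ℝ, 0 < c ∧ 0 < C ∧ ∀ s : ℝ, 1 < s → s ≤ 2 →
      c ≤ (s - 1) * zetaR K s ∧ (s - 1) * zetaR K s ≤ C := by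
  obtain ⟨C₁, hC₁, hup⟩ := eventually_zetaR_le K
  obtain ⟨c₁, hc₁, hlo⟩ := eventually_le_zetaR K
  obtain ⟨u, hu, hsub⟩ := mem_nhdsGT_iff_exists_Ioo_subset.mp (hup.and hlo)
  have hu1 : (1 : ℝ) < u := hu
  set δ := min u 2 - 1 with hδ
  have hδpos : 0 < δ := by
    rw [hδ]
    have : (1 : ℝ) < min u 2 := lt_min hu1 (by norm_num)
    linarith
  have hδle : 1 + δ ≤ u := by
    rw [hδ]
    have := min_le_left u 2
    linarith
  have hZ : 0 < zetaR K (1 + δ / 2) := zetaR_pos K (by linarith)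
  refine ⟨min c₁ (δ / 2), max C₁ (zetaR K (1 + δ / 2)), lt_min hc₁ (by linarith),
    lt_max_of_lt_left hC₁, fun s hs1 hs2 => ?_⟩
  have hs0 : 0 < s - 1 := by linarith
  rcases lt_or_ge s (1 + δ / 2) with hlt | hge
  · have hmem : s ∈ Set.Ioo 1 u := ⟨hs1, by linarith⟩
    obtain ⟨h1, h2⟩ := hsub hmem
    constructor
    · refine le_trans (min_le_left _ _) ?_
      rw [div_le_iff₀ hs0] at h2
      linarith
    · refine le_trans ?_ (le_max_left _ _)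
      rw [le_div_iff₀ hs0] at h1
      linarith
  · constructor
    · refine le_trans (min_le_right _ _) ?_
      have h1 := one_le_zetaR K hs1
      nlinarith
    · refine le_trans ?_ (le_max_right _ _)
      have h1 := zetaR_antitone K (by linarith : (1 : ℝ) < 1 + δ / 2) hge
      have h2 : s - 1 ≤ 1 := by linarith
      have h3 := zetaR_pos K hs1
      nlinarith

variable {K}

theorem PrimeIdeal.x_lt_one (𝔭 : PrimeIdeal K) {s : ℝ} (hs : 1 ≤ s) : 𝔭.x s < 1 :=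
  lt_of_le_of_lt (𝔭.x_le_half hs) (by norm_num)

theorem PrimeIdeal.one_le_inv_one_sub (𝔭 : PrimeIdeal K) {s : ℝ} (hs : 1 ≤ s) :
    1 ≤ (1 - 𝔭.x s)⁻¹ := by
  have h1 := 𝔭.x_pos s
  have h2 := 𝔭.x_lt_one hs
  rw [one_le_inv₀ (by linarith)]
  linarith

theorem PrimeIdeal.exp_x_le (𝔭 : PrimeIdeal K) {s : ℝ} (hs : 1 ≤ s) :
    Real.exp (𝔭.x s) ≤ (1 - 𝔭.x s)⁻¹ := by
  have h2 := 𝔭.x_lt_one hs
  have h3 : 0 < 1 - 𝔭.x s := by linarith
  rw [le_inv_comm₀ (Real.exp_pos _) h3, ← Real.exp_neg]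
  exact Real.one_sub_le_exp_neg _

theorem PrimeIdeal.inv_one_sub_le_exp (𝔭 : PrimeIdeal K) {s : ℝ} (hs : 1 ≤ s) :
    (1 - 𝔭.x s)⁻¹ ≤ Real.exp (𝔭.x s + 2 * 𝔭.x s ^ 2) := by
  have h1 := 𝔭.x_pos s
  have h2 := 𝔭.x_le_half hs
  have h3 : 0 < 1 - 𝔭.x s := by linarith
  have h4 : (1 - 𝔭.x s)⁻¹ = 𝔭.x s / (1 - 𝔭.x s) + 1 := by
    field_simp
    ring
  have h5 : 𝔭.x s / (1 - 𝔭.x s) ≤ 𝔭.x s + 2 * 𝔭.x s ^ 2 := by
    rw [div_le_iff₀ h3]
    nlinarith [mul_nonneg (sq_nonneg (𝔭.x s)) (by linarith : (0 : ℝ) ≤ 1 - 2 * 𝔭.x s)]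
  calc (1 - 𝔭.x s)⁻¹ = 𝔭.x s / (1 - 𝔭.x s) + 1 := h4
    _ ≤ Real.exp (𝔭.x s / (1 - 𝔭.x s)) := Real.add_one_le_exp _
    _ ≤ Real.exp (𝔭.x s + 2 * 𝔭.x s ^ 2) := Real.exp_le_exp.mpr h5

/-- A real `HasProd` with factors `≥ 1` dominates its finite partial products. -/
theorem prod_le_of_hasProd_of_one_le {ι : Type*} {g : ι → ℝ} {a : ℝ} (h : HasProd g a)
    (hg : ∀ i, 1 ≤ g i) (T : Finset ι) : ∏ i ∈ T, g i ≤ a := by
  refine ge_of_tendsto h ?_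
  filter_upwards [Filter.eventually_ge_atTop T] with T' hT'
  exact Finset.prod_le_prod_of_subset_of_one_le hT'
    (fun i _ => zero_le_one.trans (hg i)) (fun i _ _ => hg i)

variable (K)

/-- Finite Euler products are bounded by the zeta function. -/
theorem prod_inv_one_sub_le_zetaR {s : ℝ} (hs : 1 < s) (T : Finset (PrimeIdeal K)) :
    ∏ 𝔭 ∈ T, (1 - 𝔭.x s)⁻¹ ≤ zetaR K s :=
  prod_le_of_hasProd_of_one_le (hasProd_zetaR K hs)
    (fun 𝔭 => 𝔭.one_le_inv_one_sub hs.le) T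

/-- `exp (∑_{𝔭 ∈ T} N(𝔭)^(-s)) ≤ ζ_K(s)`. -/
theorem exp_sum_x_le_zetaR {s : ℝ} (hs : 1 < s) (T : Finset (PrimeIdeal K)) :
    Real.exp (∑ 𝔭 ∈ T, 𝔭.x s) ≤ zetaR K s := by
  rw [Real.exp_sum]
  refine le_trans (Finset.prod_le_prod (fun _ _ => (Real.exp_pos _).le)
    (fun 𝔭 _ => 𝔭.exp_x_le hs.le)) (prod_inv_one_sub_le_zetaR K hs T)

/-- `∑_{𝔭 ∈ T} N(𝔭)^(-s) ≤ log ζ_K(s)`. -/
theorem sum_x_le_log_zetaR {s : ℝ} (hs : 1 < s) (T : Finset (PrimeIdeal K)) :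
    ∑ 𝔭 ∈ T, 𝔭.x s ≤ Real.log (zetaR K s) := by
  rw [Real.le_log_iff_exp_le (zetaR_pos K hs)]
  exact exp_sum_x_le_zetaR K hs T

theorem summable_x {s : ℝ} (hs : 1 < s) : Summable (fun 𝔭 : PrimeIdeal K => 𝔭.x s) :=
  summable_of_sum_le (fun 𝔭 => (𝔭.x_pos s).le) (fun T => sum_x_le_log_zetaR K hs T)

theorem x_sq_le (𝔭 : PrimeIdeal K) {s : ℝ} (hs : 1 ≤ s) :
    𝔭.x s ^ 2 ≤ ((((absNorm 𝔭.1 : ℕ) : ℝ)) ^ 2)⁻¹ := by
  have h1 := 𝔭.x_le_inv hs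
  have h0 := (𝔭.x_pos s).le
  calc 𝔭.x s ^ 2 ≤ ((((absNorm 𝔭.1 : ℕ) : ℝ))⁻¹) ^ 2 := pow_le_pow_left₀ h0 h1 2
    _ = _ := by rw [inv_pow]

/-- `ζ_K(s) ≤ exp (∑' 𝔭, N(𝔭)^(-s) + 2 D)`. -/
theorem zetaR_le_exp {s : ℝ} (hs : 1 < s) :
    zetaR K s ≤ Real.exp ((∑' 𝔭 : PrimeIdeal K, 𝔭.x s) + 2 * degTwoBound K) := by
  refine le_of_tendsto (hasProd_zetaR K hs) ?_
  filter_upwards with T
  calc ∏ 𝔭 ∈ T, (1 - 𝔭.x s)⁻¹
      ≤ ∏ 𝔭 ∈ T, Real.exp (𝔭.x s + 2 * 𝔭.x s ^ 2) := by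
        refine Finset.prod_le_prod (fun 𝔭 _ => ?_) (fun 𝔭 _ => 𝔭.inv_one_sub_le_exp hs.le)
        exact le_trans zero_le_one (𝔭.one_le_inv_one_sub hs.le)
    _ = Real.exp (∑ 𝔭 ∈ T, 𝔭.x s + 2 * ∑ 𝔭 ∈ T, 𝔭.x s ^ 2) := by
        rw [← Real.exp_sum, Finset.sum_add_distrib, Finset.mul_sum]
    _ ≤ Real.exp ((∑' 𝔭 : PrimeIdeal K, 𝔭.x s) + 2 * degTwoBound K) := by
        refine Real.exp_le_exp.mpr (add_le_add ?_ (mul_le_mul_of_nonneg_left ?_ (by norm_num)))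
        · exact (summable_x K hs).sum_le_tsum T fun 𝔭 _ => (𝔭.x_pos s).le
        · exact le_trans (Finset.sum_le_sum fun 𝔭 _ => x_sq_le K 𝔭 hs.le)
            (sum_inv_absNorm_sq_le T)

/-- `log ζ_K(s) ≤ ∑' 𝔭, N(𝔭)^(-s) + 2 D`. -/
theorem log_zetaR_le {s : ℝ} (hs : 1 < s) :
    Real.log (zetaR K s) ≤ (∑' 𝔭 : PrimeIdeal K, 𝔭.x s) + 2 * degTwoBound K := by
  rw [Real.log_le_iff_le_exp (zetaR_pos K hs)]
  exact zetaR_le_exp K hs

theorem tsum_x_le_log_zetaR {s : ℝ} (hs : 1 < s) :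
    (∑' 𝔭 : PrimeIdeal K, 𝔭.x s) ≤ Real.log (zetaR K s) :=
  (summable_x K hs).tsum_le_of_sum_le fun T => sum_x_le_log_zetaR K hs T


/-! ### Degree-one primes -/

/-- The set of primes of degree one (prime absolute norm). -/
def degOne : Set (PrimeIdeal K) := {𝔭 | (absNorm 𝔭.1).Prime}

/-- The prime sum over primes of degree one. -/
noncomputable def primeSumOne (s : ℝ) : ℝ := ∑' 𝔭 : degOne K, 𝔭.1.x s

theorem summable_x_subtype {s : ℝ} (hs : 1 < s) (A : Set (PrimeIdeal K)) :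
    Summable (fun 𝔭 : A => 𝔭.1.x s) :=
  (summable_x K hs).subtype A

theorem tsum_compl_degOne_le {s : ℝ} (hs : 1 < s) :
    ∑' 𝔭 : ((degOne K)ᶜ : Set (PrimeIdeal K)), 𝔭.1.x s ≤ degTwoBound K := by
  refine (summable_x_subtype K hs _).tsum_le_of_sum_le fun T => ?_
  have h := sum_inv_absNorm_le_of_not_prime (T.map (Function.Embedding.subtype _))
    (fun 𝔭 h𝔭 => by
      obtain ⟨𝔮, -, rfl⟩ := Finset.mem_map.mp h𝔭
      exact 𝔮.2)
  rw [Finset.sum_map] at h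
  refine le_trans (Finset.sum_le_sum fun 𝔭 _ => ?_) h
  exact 𝔭.1.x_le_inv hs.le

theorem tsum_compl_degOne_nonneg (s : ℝ) :
    0 ≤ ∑' 𝔭 : ((degOne K)ᶜ : Set (PrimeIdeal K)), 𝔭.1.x s :=
  tsum_nonneg fun 𝔭 => (𝔭.1.x_pos s).le

theorem primeSumOne_add_compl {s : ℝ} (hs : 1 < s) :
    primeSumOne K s + ∑' 𝔭 : ((degOne K)ᶜ : Set (PrimeIdeal K)), 𝔭.1.x s =
      ∑' 𝔭 : PrimeIdeal K, 𝔭.x s :=
  (summable_x K hs).tsum_subtype_add_tsum_subtype_compl (degOne K)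

theorem primeSumOne_le_log_zetaR {s : ℝ} (hs : 1 < s) :
    primeSumOne K s ≤ Real.log (zetaR K s) := by
  have h1 := primeSumOne_add_compl K hs
  have h2 := tsum_compl_degOne_nonneg K s
  have h3 := tsum_x_le_log_zetaR K hs
  linarith

theorem log_zetaR_le_primeSumOne {s : ℝ} (hs : 1 < s) :
    Real.log (zetaR K s) ≤ primeSumOne K s + 3 * degTwoBound K := by
  have h1 := primeSumOne_add_compl K hs
  have h2 := tsum_compl_degOne_le K hs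
  have h3 := log_zetaR_le K hs
  linarith

/-- **F1**: the prime sum over degree-one primes is `log (1/(s-1)) + O(1)` on `(1, 2]`. -/
theorem exists_primeSumOne_bound :
    ∃ C : ℝ, ∀ s : ℝ, 1 < s → s ≤ 2 →
      |primeSumOne K s - Real.log (1 / (s - 1))| ≤ C := by
  obtain ⟨c, C, hc, hC, hb⟩ := exists_zetaR_bounds K
  refine ⟨|Real.log c| + |Real.log C| + 3 * degTwoBound K, fun s hs1 hs2 => ?_⟩
  obtain ⟨hlo, hup⟩ := hb s hs1 hs2
  have hs0 : 0 < s - 1 := by linarith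
  have hz := zetaR_pos K hs1
  have hlog : Real.log (zetaR K s) =
      Real.log ((s - 1) * zetaR K s) + Real.log (1 / (s - 1)) := by
    rw [Real.log_mul hs0.ne' hz.ne', one_div, Real.log_inv]
    ring
  have h1 : Real.log c ≤ Real.log ((s - 1) * zetaR K s) := Real.log_le_log hc hlo
  have h2 : Real.log ((s - 1) * zetaR K s) ≤ Real.log C :=
    Real.log_le_log (lt_of_lt_of_le hc hlo) hup
  have h3 := primeSumOne_le_log_zetaR K hs1
  have h4 := log_zetaR_le_primeSumOne K hs1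
  have hD := degTwoBound_nonneg (K := K)
  rw [abs_le]
  constructor
  · have := neg_abs_le (Real.log c)
    have := abs_nonneg (Real.log C)
    linarith
  · have := le_abs_self (Real.log C)
    have := abs_nonneg (Real.log c)
    linarith

/-- The same statement for the sum over all primes. -/
theorem exists_primeSum_bound :
    ∃ C : ℝ, ∀ s : ℝ, 1 < s → s ≤ 2 →
      |(∑' 𝔭 : PrimeIdeal K, 𝔭.x s) - Real.log (1 / (s - 1))| ≤ C := by
  obtain ⟨C, hC⟩ := exists_primeSumOne_bound K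
  refine ⟨C + degTwoBound K, fun s hs1 hs2 => ?_⟩
  have h1 := primeSumOne_add_compl K hs1
  have h2 := tsum_compl_degOne_le K hs1
  have h3 := tsum_compl_degOne_nonneg K s
  have h4 := abs_le.mp (hC s hs1 hs2)
  rw [abs_le]
  constructor <;> linarith [h4.1, h4.2]

end Fermat.Agent.Lib.EulerProd
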